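/-
S14 package E (partner of helper70), helper80: bookkeeping pieces of the KEY theorem.
 * `exists_ideal_pow_eq`   (K1) an element all of whose prime multiplicities are divisible by `p`
                                generates the `p`-th power of an ideal;
 * `Ideal.pow_left_injective'`-style lemma for ideals of a Dedekind domain;
Mathlib only.
-/
import Mathlib

set_option autoImplicit false

open NumberField IsDedekindDomain
open scoped nonZeroDivisors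

noncomputable section

namespace Fermat.Agent.S14.H80

section Dedekind

variable {R : Type*} [CommRing R] [IsDedekindDomain R]

/-- `p`-th powers of ideals of a Dedekind domain determine the ideal. -/
theorem ideal_pow_injective {n : ℕ} (hn : n ≠ 0) {I J : Ideal R} (h : I ^ n = J ^ n) : I = J := by
  have h1 : I ∣ J := (UniqueFactorizationMonoid.pow_dvd_pow_iff_dvd hn).mp (h ▸ dvd_rfl)
  have h2 : J ∣ I := (UniqueFactorizationMonoid.pow_dvd_pow_iff_dvd hn).mp (h ▸ dvd_rfl)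
  exact le_antisymm (Ideal.le_of_dvd h2) (Ideal.le_of_dvd h1)

/-- (K1) If every prime multiplicity of the nonzero ideal `I` is divisible by `p`, then `I` is a
`p`-th power. -/
theorem exists_ideal_pow_eq {p : ℕ} {I : Ideal R} (hI : I ≠ 0)
    (h : ∀ v : HeightOneSpectrum R, p ∣ (Associates.mk v.asIdeal).count (Associates.mk I).factors) :
    ∃ J : Ideal R, I = J ^ p := by
  refine ⟨∏ᶠ v : HeightOneSpectrum R,
    v.asIdeal ^ ((Associates.mk v.asIdeal).count (Associates.mk I).factors / p), ?_⟩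
  have hfin : (Function.mulSupport fun v : HeightOneSpectrum R =>
      v.asIdeal ^ ((Associates.mk v.asIdeal).count (Associates.mk I).factors / p)).Finite := by
    refine (Ideal.finite_factors hI).subset fun v hv => ?_
    simp only [Function.mem_mulSupport, ne_eq] at hv
    have hne : (Associates.mk v.asIdeal).count (Associates.mk I).factors ≠ 0 := by
      intro h0
      apply hv
      rw [h0, Nat.zero_div, pow_zero]
    exact (Associates.count_ne_zero_iff_dvd hI v.irreducible).mp hne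
  rw [finprod_pow hfin]
  conv_lhs => rw [← Ideal.finprod_heightOneSpectrum_factorization hI]
  refine finprod_congr fun v => ?_
  rw [IsDedekindDomain.HeightOneSpectrum.maxPowDividing, ← pow_mul, Nat.div_mul_cancel (h v)]

end Dedekind

section Three

variable {K : Type} [Field K] [NumberField K]

open IsCyclotomicExtension.Rat.Three in
/-- (K5) The KEY theorem for `p = 3`: the class group is trivial and the units are `±ζ^k`. -/
theorem key_three [IsCyclotomicExtension {3} ℚ K] {ζ : K} (hζ : IsPrimitiveRoot ζ 3)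
    (a : 𝓞 K) (ha : a ≠ 0)
    (h_val : ∀ v : HeightOneSpectrum (𝓞 K),
      3 ∣ (Associates.mk v.asIdeal).count (Associates.mk (Ideal.span {a})).factors)
    (h_loc : ∀ v : HeightOneSpectrum (𝓞 K), ((3 : ℕ) : 𝓞 K) ∈ v.asIdeal →
      ∀ (x : K) (u : (𝓞 K)ˣ), ((u : 𝓞 K) : K) = (a : K) * x ^ 3 →
        ∃ y : 𝓞 K, (u : 𝓞 K) - y ^ 3 ∈ v.asIdeal ^ 3) :
    ∃ β : K, β ^ 3 = (a : K) := by
  have hpid := IsCyclotomicExtension.Rat.three_pid K
  obtain ⟨J, hJ⟩ := exists_ideal_pow_eq (p := 3) (I := Ideal.span {a})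
    (by simpa using ha) h_val
  obtain ⟨δ, hδJ⟩ := (IsPrincipalIdealRing.principal J).principal
  have hJ' : Ideal.span {a} = Ideal.span {δ ^ 3} := by
    rw [hJ, hδJ, ← Ideal.span_singleton_pow]
  rw [Ideal.span_singleton_eq_span_singleton] at hJ'
  obtain ⟨u, hu⟩ := hJ'.symm
  have hδ : δ ≠ 0 := by
    rintro rfl
    apply ha
    rw [← hu]
    simp
  set lam := hζ.toInteger - 1 with hlam
  have hprime : Prime lam := hζ.zeta_sub_one_prime'
  let v : HeightOneSpectrum (𝓞 K) :=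
    ⟨Ideal.span {lam}, (Ideal.span_singleton_prime hprime.ne_zero).mpr hprime,
      by simpa using hprime.ne_zero⟩
  have h3 : ((3 : ℕ) : 𝓞 K) ∈ v.asIdeal :=
    Ideal.mem_span_singleton.mpr hζ.toInteger_sub_one_dvd_prime'
  have hδK : (δ : K) ≠ 0 := by
    simpa using hδ
  obtain ⟨y, hy⟩ := h_loc v h3 ((δ : K))⁻¹ u (by
    have h1 : (a : K) = (δ : K) ^ 3 * ((u : 𝓞 K) : K) := by
      rw [← hu]
      push_cast
      ring
    rw [h1]
    field_simp)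
  have hy' : lam ^ 3 ∣ (u : 𝓞 K) - y ^ 3 := by
    have h1 : v.asIdeal ^ 3 = Ideal.span {lam ^ 3} := Ideal.span_singleton_pow lam 3
    rw [h1] at hy
    exact Ideal.mem_span_singleton.mp hy
  have hny : ¬ lam ∣ y := by
    intro hdvd
    have h1 : lam ∣ (u : 𝓞 K) := by
      have h2 : lam ∣ (u : 𝓞 K) - y ^ 3 := dvd_trans (dvd_pow_self lam (by norm_num)) hy'
      have h3 : lam ∣ y ^ 3 := dvd_pow hdvd (by norm_num)
      simpa using dvd_add h2 h3
    exact hprime.not_isUnit (isUnit_of_dvd_unit h1 u.isUnit)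
  have h2' : lam ^ 2 ∣ (u : 𝓞 K) - y ^ 3 := dvd_trans (pow_dvd_pow lam (by norm_num)) hy'
  have hu1 : u = 1 ∨ u = -1 := by
    rcases lambda_pow_four_dvd_cube_sub_one_or_add_one_of_lambda_not_dvd hζ hny with h | h
    · apply eq_one_or_neg_one_of_unit_of_congruent hζ
      refine ⟨1, ?_⟩
      have h2 : lam ^ 2 ∣ y ^ 3 - 1 := dvd_trans (pow_dvd_pow lam (by norm_num)) h
      have h4 := dvd_add h2' h2
      simpa using h4
    · apply eq_one_or_neg_one_of_unit_of_congruent hζ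
      refine ⟨-1, ?_⟩
      have h2 : lam ^ 2 ∣ y ^ 3 + 1 := dvd_trans (pow_dvd_pow lam (by norm_num)) h
      have h4 := dvd_add h2' h2
      have e : (u : 𝓞 K) - y ^ 3 + (y ^ 3 + 1) = (u : 𝓞 K) - ((-1 : ℤ) : 𝓞 K) := by
        push_cast
        ring
      rwa [e] at h4
  rcases hu1 with rfl | rfl
  · refine ⟨(δ : K), ?_⟩
    rw [← hu]
    simp
  · refine ⟨-(δ : K), ?_⟩
    rw [← hu]
    push_cast
    ring

end Three

section General

variable {p : ℕ} [Fact p.Prime] {K : Type} [Field K] [NumberField K]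

/-- (K2) The class of a `p`-th root ideal of an eigen-element is an eigen-class of exponent `p`
(in the `J`-form of `IsEigenChar`). -/
theorem classGroup_eigen {ζ : K} (a : 𝓞 K) (ha : a ≠ 0)
    (h_eig : ∀ (σ : K ≃ₐ[ℚ] K) (n : ℕ), σ ζ = ζ ^ n →
      ∃ γ : K, σ (a : K) = γ ^ p * (a : K) ^ (n ^ 2))
    (𝔞 : (Ideal (𝓞 K))⁰) (h𝔞 : Ideal.span {a} = (𝔞 : Ideal (𝓞 K)) ^ p) :
    ClassGroup.mk0 𝔞 ^ p = 1 ∧
    ∀ (σ : K ≃ₐ[ℚ] K) (n : ℕ), σ ζ = ζ ^ n → ∀ J : (Ideal (𝓞 K))⁰,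
      (J : Ideal (𝓞 K)) = (𝔞 : Ideal (𝓞 K)).map (galRestrict ℤ ℚ K (𝓞 K) σ) →
      ClassGroup.mk0 J = ClassGroup.mk0 𝔞 ^ (n ^ 2) := by
  have hp0 : p ≠ 0 := (Fact.out : p.Prime).ne_zero
  constructor
  · rw [← map_pow, ClassGroup.mk0_eq_one_iff (SetLike.coe_mem _)]
    have : ((𝔞 ^ p : (Ideal (𝓞 K))⁰) : Ideal (𝓞 K)) = Ideal.span {a} := by
      rw [h𝔞]
      rfl
    rw [this]
    exact ⟨⟨a, rfl⟩⟩
  · intro σ n hσ J hJ
    obtain ⟨γ, hγ⟩ := h_eig σ n hσ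
    obtain ⟨y, x, hx, rfl⟩ := IsFractionRing.div_surjective (A := 𝓞 K) γ
    have hx0 : x ≠ 0 := nonZeroDivisors.ne_zero hx
    have hxK : (algebraMap (𝓞 K) K x) ≠ 0 := by
      simpa using hx0
    have haK : (a : K) ≠ 0 := by
      simpa using ha
    have hy0 : y ≠ 0 := by
      rintro rfl
      have h0 : σ (a : K) = 0 := by
        rw [hγ]
        simp [hp0]
      exact haK ((map_eq_zero_iff σ σ.injective).mp h0)
    -- the integral identity
    have hint : galRestrict ℤ ℚ K (𝓞 K) σ a * x ^ p = y ^ p * a ^ (n ^ 2) := by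
      apply FaithfulSMul.algebraMap_injective (𝓞 K) K
      rw [map_mul, map_mul, map_pow, map_pow, map_pow, algebraMap_galRestrict_apply, hγ,
        div_pow]
      field_simp
    -- ideals
    have hJp : (J : Ideal (𝓞 K)) ^ p = Ideal.span {galRestrict ℤ ℚ K (𝓞 K) σ a} := by
      rw [hJ, ← Ideal.map_pow, ← h𝔞, Ideal.map_span, Set.image_singleton]
    have hkey : Ideal.span {x} * (J : Ideal (𝓞 K))
        = Ideal.span {y} * ((𝔞 ^ (n ^ 2) : (Ideal (𝓞 K))⁰) : Ideal (𝓞 K)) := by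
      apply ideal_pow_injective hp0
      have e1 : ((𝔞 ^ (n ^ 2) : (Ideal (𝓞 K))⁰) : Ideal (𝓞 K)) = (𝔞 : Ideal (𝓞 K)) ^ (n ^ 2) := rfl
      rw [mul_pow, mul_pow, hJp, e1, ← pow_mul, mul_comm (n ^ 2) p, pow_mul, ← h𝔞,
        Ideal.span_singleton_pow, Ideal.span_singleton_pow, Ideal.span_singleton_pow,
        Ideal.span_singleton_mul_span_singleton, Ideal.span_singleton_mul_span_singleton,
        mul_comm (x ^ p), hint]
    rw [← map_pow]
    exact ClassGroup.mk0_eq_mk0_iff.mpr ⟨x, y, hx0, hy0, hkey⟩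

end General

section UnitStep

variable {p : ℕ} [Fact p.Prime] {K : Type} [Field K] [NumberField K]

omit [NumberField K] in
/-- An element of `K` whose `p`-th power is (the image of) a unit of `𝓞 K` is a unit of `𝓞 K`. -/
theorem exists_unit_of_pow_eq {n : ℕ} (hn : 0 < n) (t : K) (w : (𝓞 K)ˣ)
    (h : t ^ n = ((w : 𝓞 K) : K)) : ∃ v : (𝓞 K)ˣ, ((v : 𝓞 K) : K) = t := by
  have ht : IsIntegral ℤ t := by
    refine IsIntegral.of_pow hn ?_
    rw [h]
    exact RingOfIntegers.isIntegral_coe _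
  have ht' : IsIntegral ℤ t⁻¹ := by
    refine IsIntegral.of_pow hn ?_
    rw [inv_pow, h]
    have : (((w : 𝓞 K) : K))⁻¹ = (((w⁻¹ : (𝓞 K)ˣ) : 𝓞 K) : K) := by
      rw [inv_eq_iff_eq_inv, ← map_units_inv]
      simp
    rw [this]
    exact RingOfIntegers.isIntegral_coe _
  have ht0 : t ≠ 0 := by
    rintro rfl
    rw [zero_pow hn.ne'] at h
    exact (by simp : ((w : 𝓞 K) : K) ≠ 0) h.symm
  refine ⟨⟨⟨t, ht⟩, ⟨t⁻¹, ht'⟩, ?_, ?_⟩, rfl⟩
  · ext
    show t * t⁻¹ = 1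
    exact mul_inv_cancel₀ ht0
  · ext
    show t⁻¹ * t = 1
    exact inv_mul_cancel₀ ht0

/-- (K4) The unit step of the KEY theorem: if `(a) = (δ)^p` then `a` is a `p`-th power, given
the unit case. -/
theorem key_of_principal [IsCyclotomicExtension {p} ℚ K] {ζ : K} (hζ : IsPrimitiveRoot ζ p)
    (hunit : ∀ u : (𝓞 K)ˣ,
      (∀ (σ : K ≃ₐ[ℚ] K) (n : ℕ), σ ζ = ζ ^ n →
        ∃ v : (𝓞 K)ˣ, σ ((u : 𝓞 K) : K) = ((u : 𝓞 K) : K) ^ (n ^ 2) * ((v : 𝓞 K) : K) ^ p) →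
      (haveI : NeZero p := ⟨(Fact.out : p.Prime).ne_zero⟩
        ∃ y : 𝓞 K, (u : 𝓞 K) - y ^ p ∈ Ideal.span {(hζ.toInteger - 1) ^ 3}) →
      ∃ v : (𝓞 K)ˣ, u = v ^ p)
    (a : 𝓞 K) (ha : a ≠ 0)
    (h_eig : ∀ (σ : K ≃ₐ[ℚ] K) (n : ℕ), σ ζ = ζ ^ n →
      ∃ γ : K, σ (a : K) = γ ^ p * (a : K) ^ (n ^ 2))
    (h_loc : ∀ v : HeightOneSpectrum (𝓞 K), (p : 𝓞 K) ∈ v.asIdeal →
      ∀ (x : K) (u : (𝓞 K)ˣ), ((u : 𝓞 K) : K) = (a : K) * x ^ p →
        ∃ y : 𝓞 K, (u : 𝓞 K) - y ^ p ∈ v.asIdeal ^ 3)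
    (δ : 𝓞 K) (hδ : Ideal.span {a} = Ideal.span {δ} ^ p) :
    ∃ β : K, β ^ p = (a : K) := by
  have hpprime : p.Prime := Fact.out
  have hp0 : p ≠ 0 := hpprime.ne_zero
  have : NeZero p := ⟨hp0⟩
  rw [Ideal.span_singleton_pow, Ideal.span_singleton_eq_span_singleton] at hδ
  obtain ⟨u, hu⟩ := hδ.symm
  have hδ0 : δ ≠ 0 := by
    rintro rfl
    apply ha
    rw [← hu]
    simp [hp0]
  have hδK : (δ : K) ≠ 0 := by
    simpa using hδ0
  have haK : (a : K) = (δ : K) ^ p * ((u : 𝓞 K) : K) := by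
    rw [← hu]
    push_cast
    ring
  have heig_u : ∀ (σ : K ≃ₐ[ℚ] K) (n : ℕ), σ ζ = ζ ^ n →
      ∃ v : (𝓞 K)ˣ, σ ((u : 𝓞 K) : K) = ((u : 𝓞 K) : K) ^ (n ^ 2) * ((v : 𝓞 K) : K) ^ p := by
    -- the eigen-relation for the unit
    intro σ n hσ
    obtain ⟨γ, hγ⟩ := h_eig σ n hσ
    have hσδ : σ (δ : K) ≠ 0 := (map_ne_zero_iff σ σ.injective).mpr hδK
    have hσu : σ ((u : 𝓞 K) : K)
        = (((Units.map (galRestrict ℤ ℚ K (𝓞 K) σ : 𝓞 K →* 𝓞 K) u : (𝓞 K)ˣ) : 𝓞 K) : K) := by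
      exact (algebraMap_galRestrict_apply ℤ σ (u : 𝓞 K)).symm
    -- `t ^ p = σ u / u ^ (n^2)`
    set t : K := γ * (δ : K) ^ (n ^ 2) / σ (δ : K) with ht
    have h1 : σ (a : K) = σ (δ : K) ^ p * σ ((u : 𝓞 K) : K) := by
      rw [haK, map_mul, map_pow]
    have h2 : σ ((u : 𝓞 K) : K) = ((u : 𝓞 K) : K) ^ (n ^ 2) * t ^ p := by
      have h3 : σ (δ : K) ^ p * σ ((u : 𝓞 K) : K)
          = γ ^ p * ((δ : K) ^ p * ((u : 𝓞 K) : K)) ^ (n ^ 2) := by
        rw [← h1, hγ, haK]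
      rw [ht, div_pow, mul_pow]
      field_simp
      rw [mul_comm, h3]
      ring
    have h4 : t ^ p = (((Units.map (galRestrict ℤ ℚ K (𝓞 K) σ : 𝓞 K →* 𝓞 K) u * (u ^ (n ^ 2))⁻¹
        : (𝓞 K)ˣ) : 𝓞 K) : K) := by
      have h5 : ((((u ^ (n ^ 2))⁻¹ : (𝓞 K)ˣ) : 𝓞 K) : K) = (((u : 𝓞 K) : K) ^ (n ^ 2))⁻¹ := by
        rw [eq_comm, inv_eq_iff_eq_inv, ← map_units_inv]
        simp
      rw [Units.val_mul, show ∀ x y : 𝓞 K, ((x * y : 𝓞 K) : K) = (x : K) * (y : K) from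
        fun x y => map_mul (algebraMap (𝓞 K) K) x y, ← hσu, h5, h2]
      field_simp
    obtain ⟨v, hv⟩ := exists_unit_of_pow_eq hpprime.pos t _ h4
    exact ⟨v, by rw [hv]; exact h2⟩
  have hloc_u : ∃ y : 𝓞 K, (u : 𝓞 K) - y ^ p ∈ Ideal.span {(hζ.toInteger - 1) ^ 3} := by
    -- the local condition at the prime above `p`
    have hprime : Prime (hζ.toInteger - 1) := hζ.zeta_sub_one_prime'
    let v : HeightOneSpectrum (𝓞 K) :=
      ⟨Ideal.span {hζ.toInteger - 1}, (Ideal.span_singleton_prime hprime.ne_zero).mpr hprime,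
        by simpa using hprime.ne_zero⟩
    have hpv : (p : 𝓞 K) ∈ v.asIdeal :=
      Ideal.mem_span_singleton.mpr hζ.toInteger_sub_one_dvd_prime'
    obtain ⟨y, hy⟩ := h_loc v hpv ((δ : K))⁻¹ u (by
      rw [haK, inv_pow]
      field_simp)
    refine ⟨y, ?_⟩
    have h1 : v.asIdeal ^ 3 = Ideal.span {(hζ.toInteger - 1) ^ 3} :=
      Ideal.span_singleton_pow _ 3
    rw [h1] at hy
    exact hy
  obtain ⟨w, hw⟩ := hunit u heig_u hloc_u
  refine ⟨(δ : K) * ((w : 𝓞 K) : K), ?_⟩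
  rw [haK, hw]
  push_cast
  ring

end UnitStep

section Wiring

theorem five_le_of_prime {p : ℕ} (hp : p.Prime) (h3 : 3 ≤ p) (hne : p ≠ 3) : 5 ≤ p := by
  by_contra h
  have h4 : p = 4 := by omega
  subst h4
  exact absurd hp (by decide)

variable {p : ℕ} [Fact p.Prime] {K : Type} [Field K] [NumberField K]

/-- The KEY theorem, from the unit case and the CLASS statement (both as explicit hypotheses,
needed only for `5 ≤ p`).  The conclusion and the hypotheses on `a` are those of the skeleton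
`key` (with `cnt` unfolded). -/
theorem key_of_class (hp : 3 ≤ p) [IsCyclotomicExtension {p} ℚ K] {ζ : K}
    (hζ : IsPrimitiveRoot ζ p)
    (hunit : 5 ≤ p → ∀ u : (𝓞 K)ˣ,
      (∀ (σ : K ≃ₐ[ℚ] K) (n : ℕ), σ ζ = ζ ^ n →
        ∃ v : (𝓞 K)ˣ, σ ((u : 𝓞 K) : K) = ((u : 𝓞 K) : K) ^ (n ^ 2) * ((v : 𝓞 K) : K) ^ p) →
      (haveI : NeZero p := ⟨(Fact.out : p.Prime).ne_zero⟩
        ∃ y : 𝓞 K, (u : 𝓞 K) - y ^ p ∈ Ideal.span {(hζ.toInteger - 1) ^ 3}) →
      ∃ v : (𝓞 K)ˣ, u = v ^ p)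
    (hclass : 5 ≤ p → ∀ 𝔞 : (Ideal (𝓞 K))⁰, ClassGroup.mk0 𝔞 ^ p = 1 →
      (∀ (σ : K ≃ₐ[ℚ] K) (n : ℕ), σ ζ = ζ ^ n → ∀ J : (Ideal (𝓞 K))⁰,
        (J : Ideal (𝓞 K)) = (𝔞 : Ideal (𝓞 K)).map (galRestrict ℤ ℚ K (𝓞 K) σ) →
        ClassGroup.mk0 J = ClassGroup.mk0 𝔞 ^ (n ^ 2)) → ClassGroup.mk0 𝔞 = 1)
    (a : 𝓞 K) (ha : a ≠ 0)
    (h_eig : ∀ (σ : K ≃ₐ[ℚ] K) (n : ℕ), σ ζ = ζ ^ n →
      ∃ γ : K, σ (a : K) = γ ^ p * (a : K) ^ (n ^ 2))
    (h_val : ∀ v : HeightOneSpectrum (𝓞 K),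
      p ∣ (Associates.mk v.asIdeal).count (Associates.mk (Ideal.span {a})).factors)
    (h_loc : ∀ v : HeightOneSpectrum (𝓞 K), (p : 𝓞 K) ∈ v.asIdeal →
      ∀ (x : K) (u : (𝓞 K)ˣ), ((u : 𝓞 K) : K) = (a : K) * x ^ p →
        ∃ y : 𝓞 K, (u : 𝓞 K) - y ^ p ∈ v.asIdeal ^ 3) :
    ∃ β : K, β ^ p = (a : K) := by
  have hpprime : p.Prime := Fact.out
  by_cases h3 : p = 3
  · subst h3
    exact key_three hζ a ha h_val h_loc
  · have hp5 : 5 ≤ p := five_le_of_prime hpprime hp h3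
    obtain ⟨J, hJ⟩ := exists_ideal_pow_eq (p := p) (I := Ideal.span {a}) (by simpa using ha) h_val
    have hJ0 : J ≠ 0 := by
      rintro rfl
      rw [zero_pow hpprime.ne_zero] at hJ
      exact ha (by simpa using hJ)
    obtain ⟨h1, h2⟩ := classGroup_eigen (ζ := ζ) a ha h_eig
      (⟨J, mem_nonZeroDivisors_of_ne_zero hJ0⟩ : (Ideal (𝓞 K))⁰) hJ
    have h4 := hclass hp5 _ h1 h2
    have h5 : J.IsPrincipal :=
      (ClassGroup.mk0_eq_one_iff (mem_nonZeroDivisors_of_ne_zero hJ0)).mp h4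
    obtain ⟨δ, hδ⟩ := h5.principal
    refine key_of_principal hζ (hunit hp5) a ha h_eig h_loc δ ?_
    rw [hJ, hδ]

end Wiring

end Fermat.Agent.S14.H80
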