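/-
S14 package E (partner of helper70), helper80: the GLUE between the Thaine element
`θ₂ = ∏ (ζ^b - 1)^{e_b}` and the unit-side element `∏ (1 + ζ^b)^{e_b}` (`e_b ≡ b⁻²`):
`θ₂` is not a `p`-th power in `K` because `∏ (1 + ζ^b)^{e_b} ≡ θ₂³` modulo `p`-th powers.
-/
import Fermat.Agent.S14.H70.Defs
import Fermat.Agent.S14.H11.Eta2

set_option autoImplicit false

open NumberField Finset

noncomputable section

namespace Fermat.Agent.S14.H80

section Arith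

variable {p : ℕ} [hp : Fact p.Prime]

/-- `eExp p b ≡ 4 · eExp p (2b mod p)`. -/
theorem eExp_two_mul (hp2 : p ≠ 2) (b : ℕ) :
    ∃ k : ℕ, 4 * H70.eExp p ((2 * b) % p) = H70.eExp p b + p * k := by
  have h2 : (2 : ZMod p) ≠ 0 := by
    intro h
    have h' : ((2 : ℕ) : ZMod p) = 0 := by exact_mod_cast h
    rw [ZMod.natCast_eq_zero_iff] at h'
    exact hp2 ((Nat.prime_dvd_prime_iff_eq hp.out Nat.prime_two).mp h')
  have h4 : (4 : ZMod p) ≠ 0 := by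
    have : (4 : ZMod p) = 2 * 2 := by norm_num
    rw [this]
    exact mul_ne_zero h2 h2
  have hcong : ((4 * H70.eExp p ((2 * b) % p) : ℕ) : ZMod p) = ((H70.eExp p b : ℕ) : ZMod p) := by
    unfold H70.eExp
    rw [Nat.cast_mul, ZMod.natCast_zmod_val, ZMod.natCast_zmod_val, ZMod.natCast_mod]
    push_cast
    rw [mul_inv, mul_pow, inv_pow, inv_pow]
    have : (2 : ZMod p) ^ 2 = 4 := by norm_num
    rw [this, ← mul_assoc, mul_inv_cancel₀ h4, one_mul]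
  have hlt : H70.eExp p b < p := H70.eExp_lt p b
  rw [ZMod.natCast_eq_natCast_iff] at hcong
  have hle : H70.eExp p b ≤ 4 * H70.eExp p ((2 * b) % p) := by
    by_contra hcon
    rw [not_le] at hcon
    have h1 : p ∣ H70.eExp p b - 4 * H70.eExp p ((2 * b) % p) :=
      (Nat.modEq_iff_dvd' hcon.le).mp hcong
    have h2 : H70.eExp p b - 4 * H70.eExp p ((2 * b) % p) < p := lt_of_le_of_lt (Nat.sub_le _ _) hlt
    have h3 : 0 < H70.eExp p b - 4 * H70.eExp p ((2 * b) % p) := Nat.sub_pos_of_lt hcon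
    exact absurd (Nat.le_of_dvd h3 h1) (not_le.mpr h2)
  obtain ⟨k, hk⟩ := (Nat.modEq_iff_dvd' hle).mp hcong.symm
  exact ⟨k, by omega⟩

end Arith

section Field

variable {p : ℕ} [hp : Fact p.Prime] {K : Type} [Field K]

omit hp in
/-- `ζ ^ (n % p) = ζ ^ n`. -/
theorem pow_mod_of_pow_eq_one {ζ : K} (h1 : ζ ^ p = 1) (n : ℕ) : ζ ^ (n % p) = ζ ^ n := by
  conv_rhs => rw [← Nat.mod_add_div n p, pow_add, pow_mul, h1, one_pow, mul_one]

/-- Reindexing `b ↦ 2b mod p` on `{1, …, p-1}`. -/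
theorem prod_Ico_two_mul (hp2 : p ≠ 2) (g : ℕ → K) :
    ∏ b ∈ Ico 1 p, g ((2 * b) % p) = ∏ c ∈ Ico 1 p, g c := by
  have hpp : p.Prime := hp.out
  have hodd : p % 2 = 1 := hpp.eq_two_or_odd.resolve_left hp2
  -- `h = (p + 1) / 2` is the inverse of `2` modulo `p`
  set h := (p + 1) / 2 with hh
  have h2h : 2 * h = p + 1 := by omega
  have hnd : ∀ b ∈ Ico 1 p, ¬ p ∣ b := by
    intro b hb hdvd
    rw [mem_Ico] at hb
    exact absurd (Nat.le_of_dvd hb.1 hdvd) (not_le.mpr hb.2)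
  have h2nd : ¬ p ∣ 2 := by
    intro hdvd
    exact hp2 ((Nat.prime_dvd_prime_iff_eq hpp Nat.prime_two).mp hdvd)
  have hhnd : ¬ p ∣ h := by
    intro hdvd
    have : p ∣ 2 * h := Dvd.dvd.mul_left hdvd 2
    rw [h2h] at this
    have h1 : p ∣ 1 := (Nat.dvd_add_right (dvd_refl p)).mp this
    exact hpp.one_lt.ne' (Nat.dvd_one.mp h1)
  have hmem : ∀ (m : ℕ), ¬ p ∣ m → ∀ b ∈ Ico 1 p, (m * b) % p ∈ Ico 1 p := by
    intro m hm b hb
    rw [mem_Ico]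
    refine ⟨?_, Nat.mod_lt _ hpp.pos⟩
    rw [Nat.one_le_iff_ne_zero, Ne, ← Nat.dvd_iff_mod_eq_zero]
    intro hdvd
    rcases (Nat.Prime.dvd_mul hpp).mp hdvd with h' | h'
    · exact hm h'
    · exact hnd b hb h'
  refine Finset.prod_nbij' (fun b => (2 * b) % p) (fun c => (h * c) % p)
    (hmem 2 h2nd) (hmem h hhnd) ?_ ?_ (fun _ _ => rfl)
  · intro b hb
    rw [mem_Ico] at hb
    show (h * ((2 * b) % p)) % p = b
    rw [Nat.mul_mod, Nat.mod_mod, ← Nat.mul_mod, ← mul_assoc, mul_comm h 2, h2h, add_mul, one_mul,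
      Nat.mul_add_mod_self_left, Nat.mod_eq_of_lt hb.2]
  · intro c hc
    rw [mem_Ico] at hc
    show (2 * ((h * c) % p)) % p = c
    rw [Nat.mul_mod, Nat.mod_mod, ← Nat.mul_mod, ← mul_assoc, h2h, add_mul, one_mul,
      Nat.mul_add_mod_self_left, Nat.mod_eq_of_lt hc.2]

end Field

section Main

variable {p : ℕ} [hp : Fact p.Prime] {K : Type} [Field K] [NumberField K]

omit [NumberField K] in
theorem coe_thetaTwo {ζ : K} (hζ : IsPrimitiveRoot ζ p) :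
    ((H70.thetaTwo hζ : 𝓞 K) : K) = ∏ b ∈ Ico 1 p, (ζ ^ b - 1) ^ H70.eExp p b := by
  unfold H70.thetaTwo
  rw [show ∀ (s : Finset ℕ) (f : ℕ → 𝓞 K), ((∏ b ∈ s, f b : 𝓞 K) : K) = ∏ b ∈ s, (f b : K) from
    fun s f => map_prod (algebraMap (𝓞 K) K) f s]
  refine Finset.prod_congr rfl fun b _ => ?_
  push_cast
  rfl

/-- **GLUE**: `θ₂` is not a `p`-th power in `K` (`p ≥ 5`). -/
theorem thetaTwo_not_pow (hp5 : 5 ≤ p) [IsCyclotomicExtension {p} ℚ K] {ζ : K}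
    (hζ : IsPrimitiveRoot ζ p) (x : K) : x ^ p ≠ ((H70.thetaTwo hζ : 𝓞 K) : K) := by
  intro hx
  rw [coe_thetaTwo] at hx
  have hp2 : p ≠ 2 := by omega
  set θ : K := ∏ b ∈ Ico 1 p, (ζ ^ b - 1) ^ H70.eExp p b with hθ
  have hne : ∀ b ∈ Ico 1 p, ζ ^ b - 1 ≠ 0 := by
    intro b hb
    rw [mem_Ico] at hb
    exact sub_ne_zero.mpr (hζ.pow_ne_one_of_pos_of_lt (by omega) hb.2)
  have hθ0 : θ ≠ 0 := Finset.prod_ne_zero_iff.mpr fun b hb => pow_ne_zero _ (hne b hb)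
  set η : K := ∏ b ∈ Ico 1 p, (1 + ζ ^ b) ^ H70.eExp p b with hη
  have h1 : η * θ = ∏ b ∈ Ico 1 p, (ζ ^ ((2 * b) % p) - 1) ^ H70.eExp p b := by
    rw [hη, hθ, ← Finset.prod_mul_distrib]
    refine Finset.prod_congr rfl fun b _ => ?_
    rw [← mul_pow, pow_mod_of_pow_eq_one hζ.pow_eq_one]
    congr 1
    ring
  choose k hk using eExp_two_mul (p := p) hp2
  set W : K := ∏ b ∈ Ico 1 p, (ζ ^ ((2 * b) % p) - 1) ^ k b with hW
  have h2 : η * θ * W ^ p = θ ^ 4 := by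
    rw [h1, hW, ← Finset.prod_pow, ← Finset.prod_mul_distrib]
    have h3 : ∀ b, (ζ ^ ((2 * b) % p) - 1) ^ H70.eExp p b * ((ζ ^ ((2 * b) % p) - 1) ^ k b) ^ p
        = ((ζ ^ ((2 * b) % p) - 1) ^ H70.eExp p ((2 * b) % p)) ^ 4 := by
      intro b
      rw [← pow_mul, ← pow_add, ← pow_mul]
      congr 1
      rw [mul_comm (k b) p, ← hk b, mul_comm]
    simp_rw [h3]
    rw [Finset.prod_pow, prod_Ico_two_mul hp2 (fun c => (ζ ^ c - 1) ^ H70.eExp p c)]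
  have hW0 : W ≠ 0 := by
    intro h0
    rw [h0, zero_pow hp.out.ne_zero, mul_zero] at h2
    exact pow_ne_zero 4 hθ0 h2.symm
  have h4 : (x ^ 3 / W) ^ p = η := by
    rw [div_pow, ← pow_mul, mul_comm 3 p, pow_mul, hx, div_eq_iff (pow_ne_zero p hW0)]
    apply mul_left_cancel₀ hθ0
    rw [← mul_assoc, mul_comm θ η, h2]
    ring
  exact H11.eta_not_pow hp5 hζ _ h4

end Main

end Fermat.Agent.S14.H80
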